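import Mathlib
import Fermat.Prelude.Def_GaloisRep_LocalConditions

/-!
# S33 (ordinary at `p ‖ N`), block ALG33' (helper81): the algebra behind `IsOrdinaryAt`

Pure algebra (Mathlib + the Prelude definition of `IsOrdinaryAt`).

* `h81o_basis_of_idem` : an idempotent endomorphism `f ≠ 0, 1` of a free module of rank `2` over
  a local ring has its range spanned by the first vector of a basis.
* `h81o_ordinary_of_mono` : **ALG33'**.  `V` free of rank `2` over the local ring `A`,
  `ρ : G →* End V`, `I ⊆ D` subgroups with `D` normalising `I`, `χ : G → A`.  If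
  `(ρ a - χ a)(ρ b - 1) = 0` for all `a, b ∈ I` ("IN-MONO"), and some `s₀ ∈ I` has
  `1 - χ s₀` a unit and `det ρ s₀ = χ s₀`, then there is a line `L = A b₀` (`b` a basis),
  stable under `D`, with `I` trivial on `V / L`.
* `h81o_isOrdinaryAt_of_mono` : the same for a `GaloisRepAdic`, with conclusion the Prelude
  `IsOrdinaryAt p`.
-/

set_option autoImplicit false

open LinearMap

noncomputable section

namespace Fermat.Agent.S33

section Idem

variable {A V : Type*} [CommRing A] [IsLocalRing A] [AddCommGroup V] [Module A V]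
  [Module.Free A V] [Module.Finite A V]

/-- a direct summand of a finite free module over a local ring is finite free. -/
theorem h81o_free_of_isCompl (p q : Submodule A V) (h : IsCompl p q) :
    Module.Finite A p ∧ Module.Free A p := by
  have hfin : Module.Finite A p :=
    Module.Finite.of_surjective (Submodule.projectionOnto p q h)
      (Submodule.projectionOnto_surjective h)
  have hproj : Module.Projective A p :=
    Module.Projective.of_split p.subtype (Submodule.projectionOnto p q h)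
      (LinearMap.ext fun x => Submodule.projectionOnto_apply_left h x)
  exact ⟨hfin, Module.free_of_flat_of_isLocalRing⟩

/-- **rank-one idempotents.** -/
theorem h81o_basis_of_idem (h2 : Module.finrank A V = 2) (f : Module.End A V)
    (hf : IsIdempotentElem f) (hf0 : f ≠ 0) (hf1 : f ≠ 1) :
    ∃ b : Module.Basis (Fin 2) A V, LinearMap.range f = A ∙ b 0 := by
  classical
  have hc : IsCompl (LinearMap.range f) (LinearMap.ker f) := hf.isCompl
  obtain ⟨i1, i2⟩ := h81o_free_of_isCompl _ _ hc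
  obtain ⟨i3, i4⟩ := h81o_free_of_isCompl _ _ hc.symm
  let e : (↥(LinearMap.range f) × ↥(LinearMap.ker f)) ≃ₗ[A] V :=
    Submodule.prodEquivOfIsCompl _ _ hc
  have hsum : Module.finrank A ↥(LinearMap.range f) + Module.finrank A ↥(LinearMap.ker f) = 2 := by
    rw [← Module.finrank_prod, LinearEquiv.finrank_eq e, h2]
  -- both summands are non-trivial
  have hr : 0 < Module.finrank A ↥(LinearMap.range f) := by
    rw [Module.finrank_pos_iff_of_free]
    obtain ⟨v, hv⟩ : ∃ v, f v ≠ 0 := by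
      by_contra hcon
      apply hf0
      ext v
      by_contra hv
      exact hcon ⟨v, hv⟩
    exact ⟨⟨⟨f v, ⟨v, rfl⟩⟩, 0, fun h => hv (congrArg Subtype.val h)⟩⟩
  have hk : 0 < Module.finrank A ↥(LinearMap.ker f) := by
    rw [Module.finrank_pos_iff_of_free]
    obtain ⟨v, hv⟩ : ∃ v, f v ≠ v := by
      by_contra hcon
      apply hf1
      ext v
      by_contra hv
      exact hcon ⟨v, hv⟩
    have hmem : v - f v ∈ LinearMap.ker f := by
      rw [LinearMap.mem_ker, map_sub]
      have : f (f v) = f v := by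
        have := congrArg (fun g : Module.End A V => g v) hf.eq
        simpa using this
      rw [this, sub_self]
    refine ⟨⟨⟨v - f v, hmem⟩, 0, fun h => hv ?_⟩⟩
    have h0 : v - f v = 0 := congrArg Subtype.val h
    exact (sub_eq_zero.mp h0).symm
  have hr1 : Module.finrank A ↥(LinearMap.range f) = 1 := by omega
  have hk1 : Module.finrank A ↥(LinearMap.ker f) = 1 := by omega
  let b₁ : Module.Basis (Fin 1) A ↥(LinearMap.range f) := Module.finBasisOfFinrankEq A _ hr1
  let b₂ : Module.Basis (Fin 1) A ↥(LinearMap.ker f) := Module.finBasisOfFinrankEq A _ hk1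
  let b : Module.Basis (Fin 2) A V := ((b₁.prod b₂).map e).reindex finSumFinEquiv
  refine ⟨b, ?_⟩
  have hb0 : b 0 = ((b₁ 0 : ↥(LinearMap.range f)) : V) := by
    have h0 : (finSumFinEquiv (m := 1) (n := 1)).symm 0 = Sum.inl 0 := by
      rfl
    simp only [b, Module.Basis.reindex_apply, Module.Basis.map_apply, h0,
      Module.Basis.prod_apply]
    simp [e]
  rw [hb0]
  apply le_antisymm
  · rintro x hx
    -- `x ∈ range f` is a multiple of `b₁ 0`
    have h1 := b₁.sum_repr ⟨x, hx⟩
    rw [Fin.sum_univ_one] at h1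
    have h2 : x = (b₁.repr ⟨x, hx⟩ 0) • ((b₁ 0 : ↥(LinearMap.range f)) : V) := by
      have := congrArg Subtype.val h1
      simpa using this.symm
    rw [h2]
    exact Submodule.smul_mem _ _ (Submodule.mem_span_singleton_self _)
  · rw [Submodule.span_singleton_le_iff_mem]
    exact (b₁ 0).2

end Idem

section Mono

variable {A V G : Type*} [CommRing A] [IsLocalRing A] [AddCommGroup V] [Module A V]
  [Module.Free A V] [Module.Finite A V] [Group G]

/-- **ALG33'**: the ordinary line from the monodromy identity. -/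
theorem h81o_ordinary_of_mono (h2 : Module.finrank A V = 2) (ρ : G →* Module.End A V)
    (I D : Subgroup G) (hID : ∀ d ∈ D, ∀ i ∈ I, d * i * d⁻¹ ∈ I) (χ : G → A)
    (h1 : ∀ a ∈ I, ∀ b ∈ I, ∀ v : V, ρ a (ρ b v - v) = χ a • (ρ b v - v))
    (s₀ : G) (hs₀ : s₀ ∈ I) (hu : IsUnit (1 - χ s₀)) (hdet : LinearMap.det (ρ s₀) = χ s₀) :
    ∃ L : Submodule A V, (∃ b : Module.Basis (Fin 2) A V, L = A ∙ b 0) ∧
      (∀ σ ∈ D, ∀ v ∈ L, ρ σ v ∈ L) ∧ (∀ σ ∈ I, ∀ v : V, ρ σ v - v ∈ L) := by
  classical
  have hnt : Nontrivial A := inferInstance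
  obtain ⟨w, hw⟩ := hu
  set u : A := χ s₀ with hu_def
  have hwu : (w : A) = 1 - u := hw
  have hwinv : (↑w⁻¹ : A) * (1 - u) = 1 := by rw [← hwu]; exact w.inv_mul
  -- the line
  let L : Submodule A V := Submodule.span A {x | ∃ b ∈ I, ∃ v : V, x = ρ b v - v}
  have hgen : ∀ b ∈ I, ∀ v : V, ρ b v - v ∈ L := fun b hb v =>
    Submodule.subset_span ⟨b, hb, v, rfl⟩
  -- `I` acts on `L` through `χ`
  have hL : ∀ a ∈ I, ∀ x ∈ L, ρ a x = χ a • x := by
    intro a ha x hx
    refine Submodule.span_induction (p := fun x _ => ρ a x = χ a • x) ?_ ?_ ?_ ?_ hx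
    · rintro x ⟨b, hb, v, rfl⟩
      exact h1 a ha b hb v
    · simp
    · intro x y _ _ hx hy
      rw [map_add, hx, hy, smul_add]
    · intro c x _ hx
      rw [map_smul, hx, smul_comm]
  -- the idempotent `f = (1 - u)⁻¹ (1 - ρ s₀)` with range `L`
  let f : Module.End A V := (↑w⁻¹ : A) • (1 - ρ s₀)
  have hfL : ∀ v, f v ∈ L := by
    intro v
    have h3 : f v = (-(↑w⁻¹ : A)) • (ρ s₀ v - v) := by
      simp only [f, LinearMap.smul_apply, LinearMap.sub_apply, Module.End.one_apply, neg_smul,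
        smul_sub]
      abel
    rw [h3]
    exact Submodule.smul_mem _ _ (hgen s₀ hs₀ v)
  have hfx : ∀ x ∈ L, f x = x := by
    intro x hx
    have h3 : ρ s₀ x = u • x := hL s₀ hs₀ x hx
    simp only [f, LinearMap.smul_apply, LinearMap.sub_apply, Module.End.one_apply, h3]
    rw [← one_smul A x, smul_smul, ← sub_smul, smul_smul, mul_one, hwinv]
  have hfid : IsIdempotentElem f := by
    ext v
    exact hfx _ (hfL v)
  have hrange : LinearMap.range f = L := by
    apply le_antisymm
    · rintro _ ⟨v, rfl⟩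
      exact hfL v
    · intro x hx
      exact ⟨x, hfx x hx⟩
  -- `ρ s₀` is invertible, so `u = det` is a unit
  have hdu : IsUnit u := by
    rw [← hdet]
    have h3 : ρ s₀ * ρ s₀⁻¹ = 1 := by rw [← map_mul, mul_inv_cancel, map_one]
    have h4 := congrArg LinearMap.det h3
    rw [map_mul, map_one] at h4
    exact IsUnit.of_mul_eq_one _ h4
  -- `f ≠ 0`
  have hf0 : f ≠ 0 := by
    intro h0
    -- then `ρ s₀ = 1`, `det = 1 = u`
    have h3 : ρ s₀ = 1 := by
      have h4 : (1 - u) • f = 1 - ρ s₀ := by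
        simp only [f]
        rw [smul_smul, mul_comm, hwinv, one_smul]
      rw [h0, smul_zero] at h4
      exact (sub_eq_zero.mp h4.symm).symm
    have h5 : u = 1 := by rw [← hdet, h3, map_one]
    have h6 : (w : A) = 0 := by rw [hwu, h5, sub_self]
    exact w.ne_zero h6
  -- `f ≠ 1`
  have hf1 : f ≠ 1 := by
    intro h0
    -- then `ρ s₀ = u`, `det = u ^ 2 = u`
    have h3 : ρ s₀ = u • (1 : Module.End A V) := by
      have h4 : (1 - u) • f = 1 - ρ s₀ := by
        simp only [f]
        rw [smul_smul, mul_comm, hwinv, one_smul]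
      rw [h0] at h4
      have h5 : ρ s₀ = 1 - (1 - u) • (1 : Module.End A V) := by
        rw [h4]; abel
      rw [h5, sub_smul, one_smul]
      abel
    have h6 : LinearMap.det (ρ s₀) = u ^ 2 := by
      rw [h3, LinearMap.det_smul, h2, map_one, mul_one]
    rw [hdet] at h6
    -- `u = u ^ 2`, `u` a unit: `u = 1`
    obtain ⟨uu, huu⟩ := hdu
    have h7 : u = 1 := by
      have h8 : u * 1 = u * u := by rw [mul_one, ← pow_two]; exact h6
      rw [← huu] at h8 ⊢
      exact (uu.mul_right_inj.mp h8).symm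
    have h9 : (w : A) = 0 := by rw [hwu, h7, sub_self]
    exact w.ne_zero h9
  obtain ⟨b, hb⟩ := h81o_basis_of_idem h2 f hfid hf0 hf1
  refine ⟨L, ⟨b, by rw [← hrange, hb]⟩, ?_, fun σ hσ v => hgen σ hσ v⟩
  -- `D`-stability
  intro σ hσ x hx
  refine Submodule.span_induction (p := fun x _ => ρ σ x ∈ L) ?_ ?_ ?_ ?_ hx
  · rintro x ⟨c, hc, v, rfl⟩
    have h3 : ρ σ (ρ c v - v) = ρ (σ * c * σ⁻¹) (ρ σ v) - ρ σ v := by
      have h4 : ρ (σ * c * σ⁻¹) (ρ σ v) = ρ σ (ρ c v) := by
        have h5 : ρ (σ * c * σ⁻¹) * ρ σ = ρ σ * ρ c := by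
          rw [← map_mul, ← map_mul]
          congr 1
          group
        exact congrArg (fun g : Module.End A V => g v) h5
      rw [h4, map_sub]
    rw [h3]
    exact hgen _ (hID σ hσ c hc) _
  · simp
  · intro x y _ _ hx hy
    rw [map_add]
    exact L.add_mem hx hy
  · intro c x _ hx
    rw [map_smul]
    exact L.smul_mem c hx

end Mono

section Galois

/-- the decomposition group normalises the inertia group. -/
theorem h81o_inertia_conj (P : ValuationSubring (AlgebraicClosure ℚ)) :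
    ∀ d ∈ P.decompositionSubgroup ℚ, ∀ i ∈ P.inertiaSubgroupIn ℚ,
      d * i * d⁻¹ ∈ P.inertiaSubgroupIn ℚ := by
  rintro d hd _ ⟨i, hi, rfl⟩
  refine ⟨(⟨d, hd⟩ : P.decompositionSubgroup ℚ) * i * (⟨d, hd⟩ : P.decompositionSubgroup ℚ)⁻¹,
    ?_, rfl⟩
  have hn : (P.inertiaSubgroup ℚ).Normal := by
    unfold ValuationSubring.inertiaSubgroup
    exact MonoidHom.normal_ker _
  exact hn.conj_mem i hi ⟨d, hd⟩

/-- **ALG33' for a Galois representation**: the monodromy identity on inertia at every place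
over `p` implies `IsOrdinaryAt p`. -/
theorem h81o_isOrdinaryAt_of_mono {A : Type} [CommRing A] [IsLocalRing A]
    (ρ : GaloisRepAdic A) (p : ℕ)
    (h : ∀ P : ValuationSubring (AlgebraicClosure ℚ), P.LiesOverPrime p →
      ∃ χ : (AlgebraicClosure ℚ ≃ₐ[ℚ] AlgebraicClosure ℚ) → A,
        (∀ a ∈ P.inertiaSubgroupIn ℚ, ∀ b ∈ P.inertiaSubgroupIn ℚ, ∀ v : ρ.V,
          ρ.ρ a (ρ.ρ b v - v) = χ a • (ρ.ρ b v - v)) ∧
        ∃ s₀ ∈ P.inertiaSubgroupIn ℚ, IsUnit (1 - χ s₀) ∧ LinearMap.det (ρ.ρ s₀) = χ s₀) :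
    ρ.IsOrdinaryAt p := by
  intro P hP
  obtain ⟨χ, h1, s₀, hs₀, hu, hdet⟩ := h P hP
  exact h81o_ordinary_of_mono ρ.finrank_eq ρ.ρ (P.inertiaSubgroupIn ℚ)
    (P.decompositionSubgroup ℚ) (h81o_inertia_conj P) χ h1 s₀ hs₀ hu hdet

end Galois

end Fermat.Agent.S33
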